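/-
Helper library for S57 (helper29): a finite module over a Noetherian local ring whose maximal
ideal is generated by a regular sequence of length `n`, and which admits a regular sequence of
length `n` inside the maximal ideal, is free ("maximal Cohen-Macaulay over regular is free").
-/
import Mathlib.RingTheory.Depth.Rees
import Mathlib.Algebra.Category.ModuleCat.Ext.Finite
import Mathlib.RingTheory.Regular.Free
import Mathlib.RingTheory.Nakayama
import Mathlib.RingTheory.LocalRing.Quotient
import Mathlib.RingTheory.Noetherian.Basic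
import Mathlib.RingTheory.Ideal.Quotient.Noetherian
import Mathlib.RingTheory.LocalRing.RingHom.Basic

set_option autoImplicit false

open CategoryTheory Abelian RingTheory.Sequence
open scoped Pointwise

namespace Fermat.Agent.S57lib

section Depth

variable {P : Type} [CommRing P]

/-- iterated quotient of a module by successive elements of a list -/
noncomputable def iterQuot : List P → ModuleCat.{0} P → ModuleCat.{0} P
  | [], L => L
  | x :: xs, L => iterQuot xs (ModuleCat.of P (QuotSMulTop x L))

lemma iterQuot_finite (xs : List P) (L : ModuleCat.{0} P) [Module.Finite P L] :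
    Module.Finite P (iterQuot xs L) := by
  induction xs generalizing L with
  | nil => exact ‹_›
  | cons x xs ih =>
    exact ih (ModuleCat.of P (QuotSMulTop x L))

lemma iterQuot_smul_eq_zero_of (xs : List P) (L : ModuleCat.{0} P) (a : P)
    (ha : ∀ v : L, a • v = 0) : ∀ v : iterQuot xs L, a • v = 0 := by
  induction xs generalizing L with
  | nil => exact ha
  | cons x xs ih =>
    apply ih (ModuleCat.of P (QuotSMulTop x L))
    intro v
    induction v using Submodule.Quotient.induction_on with | _ v
    change (Submodule.Quotient.mk (a • v) : QuotSMulTop x L) = 0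
    rw [ha v]; rfl

lemma iterQuot_smul_eq_zero (xs : List P) (L : ModuleCat.{0} P) (a : P) (ha : a ∈ xs) :
    ∀ v : iterQuot xs L, a • v = 0 := by
  induction xs generalizing L with
  | nil => simp at ha
  | cons x xs ih =>
    rcases List.mem_cons.mp ha with rfl | h
    · apply iterQuot_smul_eq_zero_of xs (ModuleCat.of P (QuotSMulTop a L))
      intro v
      exact Module.mem_annihilator.mp (QuotSMulTop.mem_annihilator (M := L) a) v
    · exact ih (ModuleCat.of P (QuotSMulTop x L)) h

lemma iterQuot_support (xs : List P) (L : ModuleCat.{0} P) [Module.Finite P L] (I : Ideal P)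
    (hI : I ≤ Ideal.ofList xs) :
    Module.support P (iterQuot xs L) ⊆ PrimeSpectrum.zeroLocus I := by
  have := iterQuot_finite xs L
  rw [Module.support_eq_zeroLocus]
  intro p hp a ha
  have hle : Ideal.ofList xs ≤ Module.annihilator P (iterQuot xs L) := by
    rw [Ideal.ofList, Ideal.span_le]
    intro b hb
    exact Module.mem_annihilator.mpr (iterQuot_smul_eq_zero xs L b hb)
  exact hp (hle (hI ha))

variable [IsLocalRing P] [IsNoetherianRing P]

/-- Downward step: if `x ∈ 𝔪` is `L`-regular and `Ext^i(L/xL, N) = 0` for `i < n+1`,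
then `Ext^i(L, N) = 0` for `i < n`. -/
lemma ext_subsingleton_of_quotSMulTop (L N : ModuleCat.{0} P) [Module.Finite P L]
    [Module.Finite P N] {x : P} (hx : x ∈ IsLocalRing.maximalIdeal P) (reg : IsSMulRegular L x)
    (n : ℕ) (h : ∀ i < n + 1, Subsingleton (Ext (ModuleCat.of P (QuotSMulTop x L)) N i)) :
    ∀ i < n, Subsingleton (Ext L N i) := by
  intro i hi
  have hS := reg.smulShortComplex_shortExact
  have hsub : Subsingleton (Ext (ModuleCat.of P (QuotSMulTop x L)) N (1 + i)) :=
    h (1 + i) (by omega)
  have key : ∀ e' : Ext L N i, (Ext.mk₀ (x • 𝟙 L)).comp e' (zero_add i) = x • e' := by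
    intro e'
    rw [Ext.mk₀_smul, Ext.smul_comp, Ext.mk₀_id_comp]
  -- multiplication by `x` is surjective on `Ext L N i`
  have hsurj : ∀ e : Ext L N i, ∃ e' : Ext L N i, x • e' = e := by
    intro e
    obtain ⟨e', he'⟩ := Ext.contravariant_sequence_exact₁ hS N e (n₁ := 1 + i) rfl
      (@Subsingleton.elim _ hsub _ _)
    exact ⟨e', (key e').symm.trans he'⟩
  have hfin : Module.Finite P (Ext L N i) := ModuleCat.finite_ext P L N i
  have htop : (⊤ : Submodule P (Ext L N i)) = ⊥ := by
    apply Submodule.eq_bot_of_le_smul_of_le_jacobson_bot (Ideal.span {x}) ⊤ hfin.fg_top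
    · intro e _
      obtain ⟨e', rfl⟩ := hsurj e
      exact Submodule.smul_mem_smul (Ideal.subset_span rfl) Submodule.mem_top
    · rw [Ideal.span_singleton_le_iff_mem]
      exact IsLocalRing.maximalIdeal_le_jacobson _ hx
  exact (Submodule.subsingleton_iff P).mp (subsingleton_of_bot_eq_top htop.symm)

/-- If `xs` is an `L`-regular sequence in the maximal ideal and `Ext^i(L/(xs)L, N)` vanishes for
`i < |xs| + t`, then `Ext^i(L, N)` vanishes for `i < t`. -/
lemma ext_subsingleton_of_iterQuot (N : ModuleCat.{0} P) [Module.Finite P N]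
    (xs : List P) (L : ModuleCat.{0} P) [Module.Finite P L]
    (hxs : ∀ x ∈ xs, x ∈ IsLocalRing.maximalIdeal P) (reg : IsWeaklyRegular L xs) (t : ℕ)
    (h : ∀ i < xs.length + t, Subsingleton (Ext (iterQuot xs L) N i)) :
    ∀ i < t, Subsingleton (Ext L N i) := by
  induction xs generalizing L t with
  | nil => intro i hi; exact h i (by simpa using hi)
  | cons x xs ih =>
    obtain ⟨h1, h2⟩ := (isWeaklyRegular_cons_iff L x xs).mp reg
    have h3 : ∀ i < t + 1, Subsingleton (Ext (ModuleCat.of P (QuotSMulTop x L)) N i) := by
      apply ih (ModuleCat.of P (QuotSMulTop x L)) (fun y hy => hxs y (List.mem_cons_of_mem _ hy))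
        h2 (t + 1)
      intro i hi
      exact h i (by simp only [List.length_cons]; omega)
    exact ext_subsingleton_of_quotSMulTop L N (hxs x List.mem_cons_self) h1 t h3

/-- If `L` is cyclic with `Ann(L) N = 0`, `xs` is `L`-regular in the maximal ideal and
`Ext^i(L/(xs)L, N) = 0` for `i < |xs|`, then `xs` is weakly regular on `N`. -/
lemma isWeaklyRegular_of_ext_subsingleton
    (xs : List P) (L N : ModuleCat.{0} P) [Module.Finite P L] [Module.Finite P N]
    (hxs : ∀ x ∈ xs, x ∈ IsLocalRing.maximalIdeal P) (reg : IsWeaklyRegular L xs)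
    (e : L) (he : ∀ l : L, ∃ a : P, a • e = l)
    (hLN : ∀ v : N, ∃ f : L →ₗ[P] N, f e = v)
    (h : ∀ i < xs.length, Subsingleton (Ext (iterQuot xs L) N i)) :
    IsWeaklyRegular N xs := by
  induction xs generalizing L N with
  | nil => exact IsWeaklyRegular.nil P N
  | cons x xs ih =>
    obtain ⟨h1, h2⟩ := (isWeaklyRegular_cons_iff L x xs).mp reg
    have hxs' : ∀ y ∈ xs, y ∈ IsLocalRing.maximalIdeal P :=
      fun y hy => hxs y (List.mem_cons_of_mem _ hy)
    -- (i) Hom(L/xL, N) = 0
    have h0 : ∀ i < 1, Subsingleton (Ext (ModuleCat.of P (QuotSMulTop x L)) N i) := by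
      apply ext_subsingleton_of_iterQuot N xs (ModuleCat.of P (QuotSMulTop x L)) hxs' h2 1
      intro i hi
      exact h i (by simpa using hi)
    have hhom : Subsingleton (ModuleCat.of P (QuotSMulTop x L) ⟶ N) :=
      Ext.addEquiv₀.subsingleton_congr.mp (h0 0 Nat.zero_lt_one)
    have hlin : Subsingleton (QuotSMulTop x L →ₗ[P] N) :=
      (ModuleCat.homAddEquiv (M := ModuleCat.of P (QuotSMulTop x L)) (N := N)).symm.subsingleton
    -- (ii) x is N-regular
    have hreg : IsSMulRegular N x := by
      rw [isSMulRegular_iff_right_eq_zero_of_smul]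
      intro v hv
      obtain ⟨f, hf⟩ := hLN v
      have hker : x • (⊤ : Submodule P L) ≤ LinearMap.ker f := by
        intro l hl
        obtain ⟨l', -, rfl⟩ := (Submodule.mem_smul_pointwise_iff_exists _ _ _).mp hl
        obtain ⟨a, rfl⟩ := he l'
        rw [LinearMap.mem_ker, map_smul, map_smul, hf, smul_comm, hv, smul_zero]
      let g : QuotSMulTop x L →ₗ[P] N := Submodule.liftQ _ f hker
      have hg : g (Submodule.Quotient.mk e) = v := by
        simp [g, hf]
      rw [← hg, Subsingleton.elim g 0]
      rfl
    -- (iii) Ext vanishing for N/xN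
    have h_ext' : ∀ i < xs.length,
        Subsingleton (Ext (iterQuot xs (ModuleCat.of P (QuotSMulTop x L)))
          (ModuleCat.of P (QuotSMulTop x N)) i) := by
      intro i hi
      have zero1 := AddCommGrpCat.isZero_of_iff_subsingleton.mpr
        (h i (by simp only [List.length_cons]; omega))
      have zero2 := AddCommGrpCat.isZero_of_iff_subsingleton.mpr
        (h (i + 1) (by simp only [List.length_cons]; omega))
      exact AddCommGrpCat.subsingleton_of_isZero <| ShortComplex.Exact.isZero_of_both_zeros
        ((Ext.covariant_sequence_exact₃' (iterQuot xs (ModuleCat.of P (QuotSMulTop x L)))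
          hreg.smulShortComplex_shortExact) i (i + 1) rfl)
        (zero1.eq_zero_of_src _) (zero2.eq_zero_of_tgt _)
    -- (iv) induction hypothesis
    have hN' : IsWeaklyRegular (ModuleCat.of P (QuotSMulTop x N)) xs := by
      apply ih (ModuleCat.of P (QuotSMulTop x L)) (ModuleCat.of P (QuotSMulTop x N)) hxs' h2
        (Submodule.Quotient.mk e) _ _ h_ext'
      · intro l
        induction l using Submodule.Quotient.induction_on with | _ l
        obtain ⟨a, rfl⟩ := he l
        exact ⟨a, rfl⟩
      · intro v
        induction v using Submodule.Quotient.induction_on with | _ v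
        obtain ⟨f, hf⟩ := hLN v
        refine ⟨QuotSMulTop.map x f, ?_⟩
        rw [QuotSMulTop.map_apply_mk, hf]
    exact (isWeaklyRegular_cons_iff N x xs).mpr ⟨hreg, hN'⟩

end Depth

/-- A finite module over a Noetherian local ring on which a generating sequence of the
maximal ideal is weakly regular is free. -/
theorem free_of_isWeaklyRegular_of_maximalIdeal_le
    {P : Type} [CommRing P] {N : Type} [AddCommGroup N] [Module P N] {xs : List P}
    (reg : IsWeaklyRegular N xs) :
    ∀ [IsLocalRing P] [IsNoetherianRing P] [Module.Finite P N],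
      (∀ x ∈ xs, x ∈ IsLocalRing.maximalIdeal P) →
      IsLocalRing.maximalIdeal P ≤ Ideal.ofList xs → Module.Free P N := by
  refine IsWeaklyRegular.ndrecWithRing
    (motive := fun R _ M _ _ rs => ∀ [IsLocalRing R] [IsNoetherianRing R] [Module.Finite R M],
      (∀ x ∈ rs, x ∈ IsLocalRing.maximalIdeal R) →
      IsLocalRing.maximalIdeal R ≤ Ideal.ofList rs → Module.Free R M) ?_ ?_ reg
  · intro R _ M _ _ _ _ _ _ hle
    have hbot : IsLocalRing.maximalIdeal R = ⊥ := le_bot_iff.mp (by simpa using hle)
    have hfield : IsField R := IsLocalRing.isField_iff_maximalIdeal_eq.mpr hbot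
    let := hfield.toField
    exact Module.Free.of_divisionRing R M
  · intro R _ M _ _ r rs h1 h2 ih _ _ _ hmem hle
    have hr : r ∈ IsLocalRing.maximalIdeal R := hmem r List.mem_cons_self
    have hne : Ideal.span {r} ≠ ⊤ := by
      intro h
      exact (IsLocalRing.maximalIdeal.isMaximal R).ne_top
        (top_le_iff.mp (h ▸ (Ideal.span_singleton_le_iff_mem _).mpr hr))
    have : Nontrivial (R ⧸ Ideal.span {r}) := Ideal.Quotient.nontrivial_iff.mpr hne
    have : IsLocalRing (R ⧸ Ideal.span {r}) :=
      .of_surjective' _ Ideal.Quotient.mk_surjective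
    have := Module.Finite.of_restrictScalars_finite R (R ⧸ Ideal.span {r}) (QuotSMulTop r M)
    have := Module.finitePresentation_of_finite R M
    have hlocal : ∀ x : R, x ∈ IsLocalRing.maximalIdeal R →
        Ideal.Quotient.mk (Ideal.span {r}) x ∈ IsLocalRing.maximalIdeal (R ⧸ Ideal.span {r}) := by
      intro x hx
      rw [IsLocalRing.mem_maximalIdeal, mem_nonunits_iff] at hx ⊢
      intro hu
      have hloc : IsLocalHom (Ideal.Quotient.mk (Ideal.span {r})) :=
        IsLocalHom.of_surjective _ Ideal.Quotient.mk_surjective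
      exact hx (hloc.map_nonunit x hu)
    have hfree : Module.Free (R ⧸ Ideal.span {r}) (QuotSMulTop r M) := by
      apply ih
      · intro y hy
        obtain ⟨x, hx, rfl⟩ := List.mem_map.mp hy
        exact hlocal x (hmem x (List.mem_cons_of_mem _ hx))
      · intro y hy
        obtain ⟨x, rfl⟩ := Ideal.Quotient.mk_surjective y
        have hx : x ∈ IsLocalRing.maximalIdeal R := by
          rw [IsLocalRing.mem_maximalIdeal, mem_nonunits_iff] at hy ⊢
          exact fun hu => hy (hu.map _)
        have hx' := hle hx
        rw [Ideal.ofList_cons] at hx'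
        obtain ⟨a, ha, b, hb, rfl⟩ := Submodule.mem_sup.mp hx'
        rw [map_add, Ideal.Quotient.eq_zero_iff_mem.mpr ha, zero_add, ← Ideal.map_ofList]
        exact Ideal.mem_map_of_mem _ hb
    exact (Module.free_quotSMulTop_iff_free R M
      (IsLocalRing.maximalIdeal_le_jacobson _ hr) h1).mp hfree

/-- **Maximal Cohen-Macaulay modules over a regular local ring are free**, in the following
explicit form: `P` is a Noetherian local ring whose maximal ideal is generated by a (weakly)
regular sequence `xs`; `N` is a nontrivial finite `P`-module admitting a weakly regular sequence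
`ys` inside the maximal ideal with `|xs| ≤ |ys|`. Then `N` is free. -/
theorem free_of_isWeaklyRegular_of_length_le
    {P : Type} [CommRing P] [IsLocalRing P] [IsNoetherianRing P]
    {N : Type} [AddCommGroup N] [Module P N] [Module.Finite P N] [Nontrivial N]
    (xs ys : List P)
    (hxs : ∀ x ∈ xs, x ∈ IsLocalRing.maximalIdeal P)
    (hle : IsLocalRing.maximalIdeal P ≤ Ideal.ofList xs)
    (regP : IsWeaklyRegular P xs)
    (hys : ∀ y ∈ ys, y ∈ IsLocalRing.maximalIdeal P)
    (regN : IsWeaklyRegular N ys) (hlen : xs.length ≤ ys.length) :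
    Module.Free P N := by
  have regN' : IsRegular N ys :=
    (IsLocalRing.isRegular_iff_isWeaklyRegular_of_subset_maximalIdeal hys).mpr regN
  have smul_lt : IsLocalRing.maximalIdeal P • (⊤ : Submodule P N) < ⊤ := by
    refine lt_of_le_of_ne le_top fun h => ?_
    have hN : (⊤ : Submodule P N) = ⊥ :=
      Submodule.eq_bot_of_le_smul_of_le_jacobson_bot (IsLocalRing.maximalIdeal P) ⊤
        Module.Finite.fg_top h.ge (IsLocalRing.maximalIdeal_le_jacobson _)
    exact absurd ((Submodule.subsingleton_iff P).mp (subsingleton_of_bot_eq_top hN.symm))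
      (not_subsingleton N)
  have hfinL : Module.Finite P (iterQuot xs (ModuleCat.of P P)) := iterQuot_finite xs _
  have hExt := ModuleCat.subsingleton_ext_of_exists_isRegular (IsLocalRing.maximalIdeal P)
    (iterQuot xs (ModuleCat.of P P)) (iterQuot_support xs _ _ hle)
    (ModuleCat.of P N) smul_lt ys hys regN'
  have regx : IsWeaklyRegular (ModuleCat.of P N) xs := by
    apply isWeaklyRegular_of_ext_subsingleton xs (ModuleCat.of P P) (ModuleCat.of P N) hxs regP
      (1 : P) (fun l => ⟨l, by simp⟩) (fun v => ⟨LinearMap.toSpanSingleton P N v, by simp⟩)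
    intro i hi
    exact hExt i (lt_of_lt_of_le hi hlen)
  exact free_of_isWeaklyRegular_of_maximalIdeal_le (N := N) regx hxs hle

end Fermat.Agent.S57lib
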