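/-
Helper library for S57 (helper29): the variables (and a final non-zero-divisor constant) form a
weakly regular sequence on a multivariate power series ring, with explicit description of the
ideals they generate.
-/
import Mathlib.RingTheory.MvPowerSeries.Basic
import Mathlib.RingTheory.MvPowerSeries.Inverse
import Mathlib.RingTheory.Regular.RegularSequence
import Mathlib.RingTheory.Regular.IsSMulRegular

set_option autoImplicit false

open MvPowerSeries RingTheory.Sequence
open scoped Pointwise

namespace Fermat.Agent.S57lib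

variable {σ : Type} {R : Type} [CommRing R]

/-- the ideal of power series whose coefficients vanish at all exponents vanishing on `l` -/
def vanishIdeal (l : List σ) : Ideal (MvPowerSeries σ R) where
  carrier := {f | ∀ α : σ →₀ ℕ, (∀ j ∈ l, α j = 0) → coeff α f = 0}
  add_mem' := by
    intro f g hf hg α hα
    rw [map_add, hf α hα, hg α hα, add_zero]
  zero_mem' := by
    intro α _
    simp
  smul_mem' := by
    classical
    intro c f hf α hα
    rw [smul_eq_mul, coeff_mul]
    apply Finset.sum_eq_zero
    intro p hp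
    have hp' : p.1 + p.2 = α := Finset.mem_antidiagonal.mp hp
    have h2 : ∀ j ∈ l, p.2 j = 0 := by
      intro j hj
      have := hα j hj
      rw [← hp'] at this
      simp only [Finsupp.coe_add, Pi.add_apply, Nat.add_eq_zero_iff] at this
      exact this.2
    rw [hf p.2 h2, mul_zero]

lemma mem_vanishIdeal {l : List σ} {f : MvPowerSeries σ R} :
    f ∈ vanishIdeal l ↔ ∀ α : σ →₀ ℕ, (∀ j ∈ l, α j = 0) → coeff α f = 0 := Iff.rfl

lemma X_mem_vanishIdeal {l : List σ} {j : σ} (hj : j ∈ l) :
    (X j : MvPowerSeries σ R) ∈ vanishIdeal l := by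
  classical
  intro α hα
  rw [coeff_X, if_neg]
  intro h
  have := hα j hj
  rw [h] at this
  simp at this

lemma ofList_map_X_eq_vanishIdeal (l : List σ) :
    Ideal.ofList (l.map (fun j => (X j : MvPowerSeries σ R))) = vanishIdeal l := by
  classical
  apply le_antisymm
  · rw [Ideal.ofList, Ideal.span_le]
    intro x hx
    obtain ⟨j, hj, rfl⟩ := List.mem_map.mp hx
    exact X_mem_vanishIdeal hj
  · induction l with
    | nil =>
      intro f hf
      have : f = 0 := by
        ext α
        simpa using hf α (by simp)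
      rw [this]
      exact Ideal.zero_mem _
    | cons j l ih =>
      intro f hf
      let g : MvPowerSeries σ R := fun α => if (∀ k ∈ l, α k = 0) then coeff α f else 0
      have hg : ∀ α, coeff α g = if (∀ k ∈ l, α k = 0) then coeff α f else 0 := fun α => rfl
      have hdvd : (X j : MvPowerSeries σ R) ∣ g := by
        rw [X_dvd_iff]
        intro m hm
        rw [hg]
        split_ifs with h
        · apply hf
          intro k hk
          rcases List.mem_cons.mp hk with rfl | hk'
          · exact hm
          · exact h k hk'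
        · rfl
      have hfg : f - g ∈ vanishIdeal l := by
        intro α hα
        rw [map_sub, hg, if_pos hα, sub_self]
      have h1 : f - g ∈ Ideal.ofList ((j :: l).map (fun j => (X j : MvPowerSeries σ R))) := by
        rw [List.map_cons, Ideal.ofList_cons]
        exact Ideal.mem_sup_right (ih hfg)
      have h2 : g ∈ Ideal.ofList ((j :: l).map (fun j => (X j : MvPowerSeries σ R))) := by
        rw [List.map_cons, Ideal.ofList_cons]
        exact Ideal.mem_sup_left (Ideal.mem_span_singleton.mpr hdvd)
      have := Ideal.add_mem _ h1 h2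
      rwa [sub_add_cancel] at this

lemma mem_vanishIdeal_of_X_mul_mem {l : List σ} {j : σ} (hj : j ∉ l) {f : MvPowerSeries σ R}
    (hf : X j * f ∈ vanishIdeal l) : f ∈ vanishIdeal l := by
  classical
  intro α hα
  have h := hf (Finsupp.single j 1 + α) (by
    intro k hk
    have hkj : j ≠ k := fun h => hj (h ▸ hk)
    simp [hα k hk, hkj])
  rw [X, coeff_add_monomial_mul, one_mul] at h
  exact h

lemma mem_vanishIdeal_of_C_mul_mem {l : List σ} {a : R} (ha : a ∈ nonZeroDivisors R)
    {f : MvPowerSeries σ R} (hf : C a * f ∈ vanishIdeal l) : f ∈ vanishIdeal l := by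
  intro α hα
  have h := hf α hα
  rw [coeff_C_mul] at h
  exact (mul_left_mem_nonZeroDivisors_eq_zero_iff ha).mp h

lemma isWeaklyRegular_map_X (l : List σ) (hl : l.Nodup) :
    IsWeaklyRegular (MvPowerSeries σ R) (l.map (fun j => (X j : MvPowerSeries σ R))) := by
  induction l using List.reverseRecOn with
  | nil => exact IsWeaklyRegular.nil _ _
  | append_singleton l j ih =>
    have hl' : l.Nodup ∧ j ∉ l := by
      rw [List.nodup_append] at hl
      refine ⟨hl.1, fun h => ?_⟩
      exact hl.2.2 j h j (by simp) rfl
    rw [List.map_append, isWeaklyRegular_append_iff]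
    refine ⟨ih hl'.1, ?_⟩
    rw [List.map_singleton, isWeaklyRegular_singleton_iff,
      isSMulRegular_quotient_iff_mem_of_smul_mem]
    intro f hf
    rw [smul_eq_mul, Ideal.mul_top, ofList_map_X_eq_vanishIdeal] at hf ⊢
    exact mem_vanishIdeal_of_X_mul_mem hl'.2 hf

lemma isWeaklyRegular_map_X_append_C (l : List σ) (hl : l.Nodup) {a : R}
    (ha : a ∈ nonZeroDivisors R) :
    IsWeaklyRegular (MvPowerSeries σ R)
      (l.map (fun j => (X j : MvPowerSeries σ R)) ++ [C a]) := by
  rw [isWeaklyRegular_append_iff]
  refine ⟨isWeaklyRegular_map_X l hl, ?_⟩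
  rw [isWeaklyRegular_singleton_iff, isSMulRegular_quotient_iff_mem_of_smul_mem]
  intro f hf
  rw [smul_eq_mul, Ideal.mul_top, ofList_map_X_eq_vanishIdeal] at hf ⊢
  exact mem_vanishIdeal_of_C_mul_mem ha hf

lemma maximalIdeal_le_ofList_X_C [IsLocalRing R] (l : List σ) (hl : ∀ j, j ∈ l) {ϖ : R}
    (hϖ : IsLocalRing.maximalIdeal R ≤ Ideal.span {ϖ}) :
    IsLocalRing.maximalIdeal (MvPowerSeries σ R) ≤
      Ideal.ofList (l.map (fun j => (X j : MvPowerSeries σ R)) ++ [C ϖ]) := by
  intro f hf
  rw [Ideal.ofList_append, Ideal.ofList_singleton, ofList_map_X_eq_vanishIdeal]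
  have h0 : constantCoeff f ∈ IsLocalRing.maximalIdeal R := by
    rw [IsLocalRing.mem_maximalIdeal, mem_nonunits_iff] at hf ⊢
    exact fun h => hf (isUnit_iff_constantCoeff.mpr h)
  obtain ⟨a, ha⟩ := Ideal.mem_span_singleton.mp (hϖ h0)
  have h1 : f - C (constantCoeff f) ∈ vanishIdeal l := by
    intro α hα
    have h0 : α = 0 := by
      ext j
      exact hα j (hl j)
    subst h0
    simp [coeff_zero_eq_constantCoeff_apply]
  have h2 : C (constantCoeff f) ∈ Ideal.span {(C ϖ : MvPowerSeries σ R)} := by
    rw [ha, map_mul]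
    exact Ideal.mul_mem_right _ _ (Ideal.subset_span rfl)
  have := Ideal.add_mem _ (Ideal.mem_sup_left h1) (Ideal.mem_sup_right h2)
  rwa [sub_add_cancel] at this

lemma X_mem_maximalIdeal [IsLocalRing R] (j : σ) :
    (X j : MvPowerSeries σ R) ∈ IsLocalRing.maximalIdeal (MvPowerSeries σ R) := by
  rw [IsLocalRing.mem_maximalIdeal, mem_nonunits_iff, isUnit_iff_constantCoeff, constantCoeff_X]
  exact not_isUnit_zero

lemma C_mem_maximalIdeal [IsLocalRing R] {a : R} (ha : a ∈ IsLocalRing.maximalIdeal R) :
    (C a : MvPowerSeries σ R) ∈ IsLocalRing.maximalIdeal (MvPowerSeries σ R) := by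
  rw [IsLocalRing.mem_maximalIdeal, mem_nonunits_iff, isUnit_iff_constantCoeff, constantCoeff_C]
  exact ha

end Fermat.Agent.S57lib
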