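/-
Helper library for S57 (helper29): the patched module of a patching level with trivial relation
ideal is free over the power series ring.
-/
import Fermat.Prelude.Def_Algebra_PatchingDatum
import Mathlib.RingTheory.DiscreteValuationRing.Basic
import Mathlib.RingTheory.MvPowerSeries.Equiv
import Mathlib.RingTheory.Flat.Basic
import Fermat.Agent.S57lib.Depth
import Fermat.Agent.S57lib.PowerSeriesRegular

set_option autoImplicit false
set_option linter.unusedSectionVars false

open MvPowerSeries RingTheory.Sequence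
open scoped Pointwise TensorProduct

namespace Fermat.Agent.S57lib

variable {𝒪 : Type} [CommRing 𝒪] [IsDomain 𝒪] [IsDiscreteValuationRing 𝒪]
    {r : ℕ} {R : Type} [CommRing R] [Algebra 𝒪 R]
    {M : Type} [AddCommGroup M] [Module R M]
    (L : Algebra.PatchingLevel 𝒪 r R M ⊥)

/-- the `φ`-semilinear additive equivalence `P^d ≃ N` -/
noncomputable def twistEquiv : (Fin L.d → MvPowerSeries (Fin r) 𝒪) ≃+ L.N :=
  AddEquiv.ofBijective
    ({ toFun := fun c => ∑ i, L.φ (c i) • L.b i
       map_zero' := by simp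
       map_add' := by
        intro c c'
        simp [add_smul, Finset.sum_add_distrib] } :
      (Fin L.d → MvPowerSeries (Fin r) 𝒪) →+ L.N)
    ⟨(injective_iff_map_eq_zero _).mpr (fun c hc => funext fun i => by
        have := (L.b_rel c).mp hc i
        simpa using this),
      fun x => by
        obtain ⟨c, hc⟩ := L.b_span x
        exact ⟨c, hc.symm⟩⟩

lemma twistEquiv_apply (c : Fin L.d → MvPowerSeries (Fin r) 𝒪) :
    twistEquiv L c = ∑ i, L.φ (c i) • L.b i := rfl

lemma twistEquiv_smul (x : MvPowerSeries (Fin r) 𝒪) (c : Fin L.d → MvPowerSeries (Fin r) 𝒪) :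
    twistEquiv L (x • c) = L.φ x • twistEquiv L c := by
  simp [twistEquiv_apply, Finset.smul_sum, mul_smul]

lemma finite_N : Module.Finite (MvPowerSeries (Fin r) 𝒪) L.N := by
  refine ⟨Submodule.fg_def.mpr ⟨Set.range L.b, Set.finite_range _, ?_⟩⟩
  rw [eq_top_iff]
  intro x _
  obtain ⟨c, rfl⟩ := L.b_span x
  exact Submodule.sum_mem _ fun i _ => Submodule.smul_mem _ _ (Submodule.subset_span ⟨i, rfl⟩)

variable [Nontrivial M]

include L in
lemma nontrivial_R : Nontrivial R := by
  by_contra h
  rw [not_nontrivial_iff_subsingleton] at h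
  have : Subsingleton M := Module.subsingleton R M
  exact not_subsingleton M this

lemma nontrivial_N : Nontrivial L.N := by
  by_contra h
  rw [not_nontrivial_iff_subsingleton] at h
  have : Subsingleton M := ⟨fun a b => by
    obtain ⟨x, rfl⟩ := L.π_surjective a
    obtain ⟨y, rfl⟩ := L.π_surjective b
    rw [Subsingleton.elim x y]⟩
  exact not_subsingleton M this

lemma φ_X_mem_maximalIdeal (i : Fin r) :
    L.φ (X i) ∈ IsLocalRing.maximalIdeal (MvPowerSeries (Fin r) 𝒪) := by
  rw [IsLocalRing.mem_maximalIdeal, mem_nonunits_iff]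
  intro hu
  have h1 : IsUnit (L.ψ (L.φ (X i))) := hu.map L.ψ
  rw [L.ψ_φ_X] at h1
  have := nontrivial_R L
  exact not_isUnit_zero h1

theorem free_N : Module.Free (MvPowerSeries (Fin r) 𝒪) L.N := by
  obtain ⟨ϖ, hϖ⟩ := IsDiscreteValuationRing.exists_irreducible 𝒪
  have hmax : IsLocalRing.maximalIdeal 𝒪 = Ideal.span {ϖ} := hϖ.maximalIdeal_eq
  have hϖm : ϖ ∈ IsLocalRing.maximalIdeal 𝒪 := by
    rw [hmax]; exact Ideal.subset_span rfl
  set xs : List (MvPowerSeries (Fin r) 𝒪) :=
    (List.finRange r).map (fun j => (X j : MvPowerSeries (Fin r) 𝒪)) ++ [C ϖ] with hxs_def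
  have regP : IsWeaklyRegular (MvPowerSeries (Fin r) 𝒪) xs :=
    isWeaklyRegular_map_X_append_C (List.finRange r) (List.nodup_finRange r)
      (mem_nonZeroDivisors_of_ne_zero hϖ.ne_zero)
  have hxs : ∀ x ∈ xs, x ∈ IsLocalRing.maximalIdeal (MvPowerSeries (Fin r) 𝒪) := by
    intro x hx
    rcases List.mem_append.mp hx with h | h
    · obtain ⟨j, -, rfl⟩ := List.mem_map.mp h
      exact X_mem_maximalIdeal j
    · rw [List.mem_singleton] at h
      rw [h]
      exact C_mem_maximalIdeal hϖm
  have hle : IsLocalRing.maximalIdeal (MvPowerSeries (Fin r) 𝒪) ≤ Ideal.ofList xs :=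
    maximalIdeal_le_ofList_X_C (List.finRange r) (fun j => List.mem_finRange j) hmax.le
  -- regularity on `P^d`
  have regPd : IsWeaklyRegular (Fin L.d → MvPowerSeries (Fin r) 𝒪) xs := by
    have h1 := regP.isWeaklyRegular_rTensor (M₂ := Fin L.d → MvPowerSeries (Fin r) 𝒪)
    exact (LinearEquiv.isWeaklyRegular_congr (TensorProduct.lid _ _) xs).mp h1
  -- transport to `N`
  have regN : IsWeaklyRegular L.N (xs.map L.φ) :=
    ((twistEquiv L).isWeaklyRegular_congr (List.forall₂_map_right_iff.mpr
      (List.forall₂_same.mpr fun x _ c => twistEquiv_smul L x c))).mp regPd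
  have hys : ∀ y ∈ xs.map L.φ, y ∈ IsLocalRing.maximalIdeal (MvPowerSeries (Fin r) 𝒪) := by
    intro y hy
    obtain ⟨x, hx, rfl⟩ := List.mem_map.mp hy
    rcases List.mem_append.mp hx with h | h
    · obtain ⟨j, -, rfl⟩ := List.mem_map.mp h
      exact φ_X_mem_maximalIdeal L j
    · rw [List.mem_singleton] at h
      rw [h]
      have : L.φ (C ϖ) = C ϖ := L.φ.commutes ϖ
      rw [this]
      exact C_mem_maximalIdeal hϖm
  have := finite_N L
  have := nontrivial_N L
  exact free_of_isWeaklyRegular_of_length_le xs (xs.map L.φ) hxs hle regP hys regN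
    (by simp)

end Fermat.Agent.S57lib
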